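import Fermat.Agent.S15.Outer.Phi
import Fermat.Agent.S15.Outer.NP.Type
import Fermat.Agent.S15.Red.Conc

/-!
# S15 / OUTER, block DISC: the common core of `presZ_hecke` and `presI_hecke`

For a place `w` of `FN (p q)` with restrictions `x = rbP w`, `y = raP w`:
* `core_zz`, `core_oo` : `x` a cusp ⟹ `y` the same cusp;
* `core_pt` : `x = (a, b)` with `a ∉ A` ⟹ `y = (a', b')` with `a' ∉ A`, of the same type.
-/

set_option autoImplicit false
set_option linter.unusedSectionVars false

noncomputable section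

namespace Fermat.Agent.S15.Outer

open AlgebraicCurve ModularCurve Fermat.Agent.S24 Fermat.Agent.S37 Fermat.Agent.Lib.RR
  Fermat.Agent.S19.Weil Fermat.Agent.GAL.RED

/-! ### orders and the adic valuation -/

section abs

variable {K F : Type*} [Field K] [Field F] [Algebra K F] (w : Place K F)

theorem Core_val_eq_exp {f : F} (hf : f ≠ 0) :
    w.adicValuation f = WithZero.exp (-(w.ord f)) := by
  rw [Place.ord, neg_neg, WithZero.exp_log (w.adicValuation_ne_zero hf)]

theorem Core_one_lt_val_iff (f : F) : 1 < w.adicValuation f ↔ w.ord f < 0 := by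
  rcases eq_or_ne f 0 with rfl | hf
  · simp
  · rw [Core_val_eq_exp w hf, ← WithZero.exp_zero, WithZero.exp_lt_exp]
    omega

theorem Core_val_le_one_iff (f : F) : w.adicValuation f ≤ 1 ↔ 0 ≤ w.ord f := by
  rw [← not_lt, Core_one_lt_val_iff, not_lt]

theorem Core_val_eq_pow_iff {f g : F} (hf : f ≠ 0) (hg : g ≠ 0) (n : ℕ) :
    w.adicValuation g = w.adicValuation f ^ n ↔ w.ord g = n * w.ord f := by
  rw [Core_val_eq_exp w hf, Core_val_eq_exp w hg, ← WithZero.exp_nsmul, WithZero.exp_inj,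
    nsmul_eq_mul]
  constructor <;> intro h <;> linarith

theorem Core_ne_zero_of_ord_neg {f : F} (h : w.ord f < 0) : f ≠ 0 := by
  rintro rfl
  rw [w.ord_zero] at h
  exact lt_irrefl _ h

end abs

/-! ### values -/

section val

variable {K F : Type*} [Field K] [Field F] [Algebra K F] [Lib.RR.IsFF K F] [IsAlgClosed K] (w : Place K F)

theorem Core_mem_iff (f : F) : f ∈ w.toValuationSubring ↔ 0 ≤ w.ord f := by
  rw [mem_iff_ord]
  constructor
  · rintro (rfl | h)
    · rw [w.ord_zero]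
    · exact h
  · exact Or.inr

/-- the residue map transports `ModRel`. -/
theorem Core_modRel_ev {e : ℕ} {X Y : F} (h : ModRel e X Y) (hX : X ∈ w.toValuationSubring)
    (hY : Y ∈ w.toValuationSubring) : ModRel e (ev w X) (ev w Y) := by
  have h1 : ModRel e (⟨X, hX⟩ : w.toValuationSubring) ⟨Y, hY⟩ :=
    ModRel.of_map w.toValuationSubring.subtype Subtype.val_injective h
  have h2 := h1.map (resK w)
  have e1 : resK w ⟨X, hX⟩ = ev w X := (GRed.of_mem _ _ hX).symm
  have e2 : resK w ⟨Y, hY⟩ = ev w Y := (GRed.of_mem _ _ hY).symm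
  rwa [e1, e2] at h2

theorem Core_mem_and_ev {f : F} {a : K} (h : 0 < w.ord (f - algebraMap K F a)) :
    f ∈ w.toValuationSubring ∧ ev w f = a := by
  have h1 : f - algebraMap K F a ∈ w.toValuationSubring := (mem_iff_ord w _).2 (Or.inr h.le)
  have h2 : f ∈ w.toValuationSubring := by
    have := add_mem h1 (Ev_algebraMap_mem w a)
    rwa [sub_add_cancel] at this
  exact ⟨h2, (ev_eq_iff w h2 a).2 (Or.inr h)⟩

end val

variable {p q : ℕ} [NeZero p] [NeZero q]

/-! ### the cusps -/

/-- the orders of the four functions at a place over a cusp. -/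
theorem core_cusp (hp : p.Prime) (hq : q.Prime) (hqp : q ≠ p) (w : Place Kbar (FN (p * q)))
    (h : w.ord (Jq p q) < 0) :
    w.ord (J1 p q) < 0 ∧
      (w.ord (Jpq p q) = p * w.ord (Jq p q) → w.ord (Jp p q) = p * w.ord (J1 p q)) ∧
      (p * w.ord (Jpq p q) = w.ord (Jq p q) → p * w.ord (Jp p q) = w.ord (J1 p q)) := by
  have hv : 1 < w.adicValuation (Jq p q) := (Core_one_lt_val_iff w _).2 h
  obtain ⟨h1, h2, h3⟩ := type_transfer w.adicValuation hp hq hqp.symm (modRel_J1_Jq p q hq)
    (modRel_Jp_Jpq p q hq) (modRel_J1_Jp p q hp) (modRel_Jq_Jpq p q hp) hv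
  have hvp : 1 < w.adicValuation (Jp p q) := (modRel_J1_Jp p q hp).symm.one_lt_val _ h1
  have hvpq : 1 < w.adicValuation (Jpq p q) := (modRel_Jq_Jpq p q hp).symm.one_lt_val _ hv
  have n1 := Core_ne_zero_of_ord_neg w ((Core_one_lt_val_iff w _).1 h1)
  have nq := Core_ne_zero_of_ord_neg w h
  have np := Core_ne_zero_of_ord_neg w ((Core_one_lt_val_iff w _).1 hvp)
  have npq := Core_ne_zero_of_ord_neg w ((Core_one_lt_val_iff w _).1 hvpq)
  refine ⟨(Core_one_lt_val_iff w _).1 h1, fun e => ?_, fun e => ?_⟩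
  · exact (Core_val_eq_pow_iff w n1 np p).1 (h2 ((Core_val_eq_pow_iff w nq npq p).2 e))
  · exact ((Core_val_eq_pow_iff w np n1 p).1
      (h3 ((Core_val_eq_pow_iff w npq nq p).2 e.symm).symm).symm).symm

theorem core_zz (hp : p.Prime) (hq : q.Prime) (hqp : q ≠ p) (w : Place Kbar (FN (p * q)))
    (hx : rbP w = zz p) : raP w = zz p := by
  have C := Red.cuspFacts p hp
  have hp2 : (2 : ℤ) ≤ p := by exact_mod_cast hp.two_le
  have h1 : w.ord (Jq p q) < 0 := by
    rw [← bP_j]
    refine (ord_restrictAlong_neg_iff (bP p q) (integral_bP p q) w _).1 ?_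
    change (rbP w).ord (jF p) < 0
    rw [hx, C.zz_j]
    omega
  have h2 : (p : ℤ) * w.ord (Jpq p q) = w.ord (Jq p q) := by
    have := (ord_restrictAlong_prop_iff (bP p q) (integral_bP p q) w (Red.jp p) (jF p) p 1).1 (by
      change (p : ℤ) * (rbP w).ord (Red.jp p) = 1 * (rbP w).ord (jF p)
      rw [hx, C.zz_j, C.zz_jp]
      ring)
    rw [bP_j, bP_jp, one_mul] at this
    exact this
  obtain ⟨k1, -, k3⟩ := core_cusp hp hq hqp w h1
  have k4 := k3 h2
  have k5 : (raP w).ord (jF p) < 0 := by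
    refine (ord_restrictAlong_neg_iff (aP p q) (integral_aP p q) w _).2 ?_
    rw [aP_j]
    exact k1
  have k6 : (p : ℤ) * (raP w).ord (Red.jp p) = 1 * (raP w).ord (jF p) := by
    refine (ord_restrictAlong_prop_iff (aP p q) (integral_aP p q) w (Red.jp p) (jF p) p 1).2 ?_
    rw [aP_j, aP_jp, one_mul]
    exact k4
  rcases C.pole_j _ k5 with e | e
  · exfalso
    rw [e, C.oo_j, C.oo_jp] at k6
    nlinarith
  · exact e

theorem core_oo (hp : p.Prime) (hq : q.Prime) (hqp : q ≠ p) (w : Place Kbar (FN (p * q)))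
    (hx : rbP w = oo p) : raP w = oo p := by
  have C := Red.cuspFacts p hp
  have hp2 : (2 : ℤ) ≤ p := by exact_mod_cast hp.two_le
  have h1 : w.ord (Jq p q) < 0 := by
    rw [← bP_j]
    refine (ord_restrictAlong_neg_iff (bP p q) (integral_bP p q) w _).1 ?_
    change (rbP w).ord (jF p) < 0
    rw [hx, C.oo_j]
    omega
  have h2 : w.ord (Jpq p q) = (p : ℤ) * w.ord (Jq p q) := by
    have := (ord_restrictAlong_prop_iff (bP p q) (integral_bP p q) w (Red.jp p) (jF p) 1 p).1 (by
      change 1 * (rbP w).ord (Red.jp p) = (p : ℤ) * (rbP w).ord (jF p)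
      rw [hx, C.oo_j, C.oo_jp]
      ring)
    rw [bP_j, bP_jp, one_mul] at this
    exact this
  obtain ⟨k1, k3, -⟩ := core_cusp hp hq hqp w h1
  have k4 := k3 h2
  have k5 : (raP w).ord (jF p) < 0 := by
    refine (ord_restrictAlong_neg_iff (aP p q) (integral_aP p q) w _).2 ?_
    rw [aP_j]
    exact k1
  have k6 : 1 * (raP w).ord (Red.jp p) = (p : ℤ) * (raP w).ord (jF p) := by
    refine (ord_restrictAlong_prop_iff (aP p q) (integral_aP p q) w (Red.jp p) (jF p) 1 p).2 ?_
    rw [aP_j, aP_jp, one_mul]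
    exact k4
  rcases C.pole_j _ k5 with e | e
  · exact e
  · exfalso
    rw [e, C.zz_j, C.zz_jp] at k6
    nlinarith

/-! ### the points -/

/-- a function of level `p` with a pole is not a constant after `aP`. -/
theorem Core_aP_ne_const {f : FN p} {P : Place Kbar (FN p)} (h : P.ord f < 0) (c : Kbar) :
    aP p q f ≠ algebraMap Kbar (FN (p * q)) c := by
  intro e
  have e1 : aP p q f = aP p q (algebraMap Kbar (FN p) c) := by rw [e, AlgHom.commutes]
  have e2 : f = algebraMap Kbar (FN p) c := (aP p q).toRingHom.injective e1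
  rw [e2, GAL.RED.ord_algebraMap] at h
  exact lt_irrefl _ h

theorem core_pt (hp : p.Prime) (hq : q.Prime) (hqp : q ≠ p) (A : ValuationSubring Kbar)
    (w : Place Kbar (FN (p * q))) {a b : Kbar} (hx : IsPt p (rbP w) a b) (ha : a ∉ A) :
    ∃ a' b' : Kbar, IsPt p (raP w) a' b' ∧ a' ∉ A ∧
      (A.valuation b = A.valuation a ^ p → A.valuation b' = A.valuation a' ^ p) ∧
      (A.valuation b ^ p = A.valuation a → A.valuation b' ^ p = A.valuation a') := by
  have C := Red.cuspFacts p hp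
  obtain ⟨hx1, hx2⟩ := (isPt_rbP_iff w a b).1 hx
  obtain ⟨mq, eq⟩ := Core_mem_and_ev w hx1
  obtain ⟨mpq, epq⟩ := Core_mem_and_ev w hx2
  have m1 : J1 p q ∈ w.toValuationSubring := by
    rw [Core_mem_iff, ← Core_val_le_one_iff]
    refine (modRel_J1_Jq p q hq).symm.val_le_one _ ?_
    rw [Core_val_le_one_iff, ← Core_mem_iff]
    exact mq
  have mp : Jp p q ∈ w.toValuationSubring := by
    rw [Core_mem_iff, ← Core_val_le_one_iff]
    refine (modRel_Jp_Jpq p q hq).symm.val_le_one _ ?_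
    rw [Core_val_le_one_iff, ← Core_mem_iff]
    exact mpq
  have r1 := Core_modRel_ev w (modRel_J1_Jq p q hq) m1 mq
  have r2 := Core_modRel_ev w (modRel_Jp_Jpq p q hq) mp mpq
  have r3 := Core_modRel_ev w (modRel_J1_Jp p q hp) m1 mp
  have r4 := Core_modRel_ev w (modRel_Jq_Jpq p q hp) mq mpq
  rw [eq] at r1 r4
  rw [epq] at r2 r4
  have hva : 1 < A.valuation a := by
    rw [← not_le, A.valuation_le_one_iff]
    exact ha
  obtain ⟨t1, t2, t3⟩ := type_transfer A.valuation hp hq hqp.symm r1 r2 r3 r4 hva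
  refine ⟨ev w (J1 p q), ev w (Jp p q), (isPt_raP_iff w _ _).2 ⟨?_, ?_⟩, ?_, t2, t3⟩
  · refine (ord_sub_ev_pos w m1).resolve_left ?_
    rw [← aP_j]
    exact Core_aP_ne_const (P := oo p) (by rw [C.oo_j]; omega) _
  · refine (ord_sub_ev_pos w mp).resolve_left ?_
    rw [← aP_jp]
    have hp0 : (0 : ℤ) < p := by exact_mod_cast hp.pos
    exact Core_aP_ne_const (P := oo p) (f := Red.jp p) (by rw [C.oo_jp]; omega) _
  · rw [← A.valuation_le_one_iff, not_le]
    exact t1

end Fermat.Agent.S15.Outer
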