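import Mathlib

/-!
# S15 / OUTER / DISC : the combinatorial lemma (pure Mathlib)

Four sizes `a' = |j(τ)|`, `a = |j(qτ)|`, `b' = |j(pτ)|`, `b = |j(pqτ)|`, all `> 1`, with the three dichotomies
(level `q` twice, level `p` once).  If `(a, b)` is near the cusp `0` (resp. `∞`) of `X₀(p)`, so is `(a', b')`.
-/

set_option autoImplicit false

namespace Fermat.Agent.S15.Outer.Disc

section Mul

variable {Γ : Type*} [LinearOrderedCommGroupWithZero Γ]

theorem Comb_pow_inj {x : Γ} (hx : 1 < x) {m n : ℕ} (h : x ^ m = x ^ n) : m = n :=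
  (pow_right_strictMono₀ hx).injective h

theorem Comb_one_lt_of_pow {x : Γ} {n : ℕ} (h : 1 < x ^ n) : 1 < x := by
  by_contra hx
  exact absurd h (not_lt.2 (pow_le_one₀ zero_le (not_lt.1 hx)))

/-- near `0` is preserved. -/
theorem comb_zero {p q : ℕ} (hp : 2 ≤ p) (hq : 2 ≤ q) (hpq : p ≠ q) {a a' b b' : Γ} (ha' : 1 < a')
    (h1 : a = a' ^ q ∨ a ^ q = a') (h2 : b = b' ^ q ∨ b ^ q = b') (h3 : b' = a' ^ p ∨ b' ^ p = a')
    (h : b ^ p = a) : b' ^ p = a' := by
  rcases h3 with h3 | h3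
  swap
  · exact h3
  exfalso
  have hq0 : 0 < q := by omega
  have hp0 : 0 < p := by omega
  have hpp : 1 < p * p := by nlinarith
  rcases h1 with h1 | h1 <;> rcases h2 with h2 | h2
  · -- a = a'^q, b = b'^q
    have e : a' ^ (p * q * p) = a' ^ q := by
      rw [← h1, ← h, h2, h3, ← pow_mul, ← pow_mul, mul_assoc]
    have := Comb_pow_inj ha' e
    nlinarith
  · -- a = a'^q, b^q = b'
    have e : a' ^ (p * p) = a' ^ (q * q) := by
      calc a' ^ (p * p) = (a' ^ p) ^ p := by rw [pow_mul]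
        _ = (b ^ q) ^ p := by rw [h2, h3]
        _ = (b ^ p) ^ q := by rw [← pow_mul, ← pow_mul, mul_comm]
        _ = a' ^ (q * q) := by rw [h, h1, ← pow_mul]
    have := Comb_pow_inj ha' e
    exact hpq (Nat.mul_self_inj.1 this)
  · -- a^q = a', b = b'^q
    have ha : 1 < a := Comb_one_lt_of_pow (h1 ▸ ha')
    have e : a ^ (q * p * q * p) = a ^ 1 := by
      rw [pow_one]
      conv_rhs => rw [← h, h2, h3, ← h1]
      rw [← pow_mul, ← pow_mul, ← pow_mul]
      congr 1
      ring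
    have := Comb_pow_inj ha e
    have h4 : 1 < q * p * q * p := by
      have : 4 ≤ q * p := by nlinarith
      nlinarith
    omega
  · -- a^q = a', b^q = b'
    have ha : 1 < a := Comb_one_lt_of_pow (h1 ▸ ha')
    have e : a ^ (q * p * p) = a ^ q := by
      calc a ^ (q * p * p) = ((a ^ q) ^ p) ^ p := by rw [← pow_mul, ← pow_mul, mul_assoc]
        _ = (b ^ q) ^ p := by rw [h1, ← h3, h2]
        _ = (b ^ p) ^ q := by rw [← pow_mul, ← pow_mul, mul_comm]
        _ = a ^ q := by rw [h]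
    have := Comb_pow_inj ha e
    nlinarith

/-- near `∞` is preserved. -/
theorem comb_inf {p q : ℕ} (hp : 2 ≤ p) (hq : 2 ≤ q) (hpq : p ≠ q) {a a' b b' : Γ} (hb' : 1 < b')
    (h1 : a = a' ^ q ∨ a ^ q = a') (h2 : b = b' ^ q ∨ b ^ q = b') (h3 : b' = a' ^ p ∨ b' ^ p = a')
    (h : b = a ^ p) : b' = a' ^ p :=
  (comb_zero hp hq hpq hb' h2 h1 (h3.symm.imp Eq.symm Eq.symm) h.symm).symm

end Mul

section Add

/-- additive version (orders of poles). -/
theorem comb_zero_int {p q : ℕ} (hp : 2 ≤ p) (hq : 2 ≤ q) (hpq : p ≠ q) {a a' b b' : ℤ} (ha' : 0 < a')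
    (h1 : a = q * a' ∨ q * a = a') (h2 : b = q * b' ∨ q * b = b') (h3 : b' = p * a' ∨ p * b' = a')
    (h : p * b = a) : p * b' = a' := by
  have key := comb_zero (Γ := WithZero (Multiplicative ℤ)) hp hq hpq
    (a := ((Multiplicative.ofAdd a : Multiplicative ℤ) : WithZero (Multiplicative ℤ)))
    (a' := ((Multiplicative.ofAdd a' : Multiplicative ℤ) : WithZero (Multiplicative ℤ)))
    (b := ((Multiplicative.ofAdd b : Multiplicative ℤ) : WithZero (Multiplicative ℤ)))
    (b' := ((Multiplicative.ofAdd b' : Multiplicative ℤ) : WithZero (Multiplicative ℤ)))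
  have conv : ∀ (x y : ℤ) (n : ℕ),
      (((Multiplicative.ofAdd x : Multiplicative ℤ) : WithZero (Multiplicative ℤ)) ^ n
        = ((Multiplicative.ofAdd y : Multiplicative ℤ) : WithZero (Multiplicative ℤ))) ↔ n * x = y := by
    intro x y n
    rw [← WithZero.coe_pow, WithZero.coe_inj, ← ofAdd_nsmul, Multiplicative.ofAdd.apply_eq_iff_eq,
      nsmul_eq_mul]
  have hone : (1 : WithZero (Multiplicative ℤ)) <
      ((Multiplicative.ofAdd a' : Multiplicative ℤ) : WithZero (Multiplicative ℤ)) := by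
    rw [← WithZero.coe_one, WithZero.coe_lt_coe, ← ofAdd_zero, Multiplicative.ofAdd_lt]
    exact ha'
  rw [← conv]
  apply key hone
  · exact h1.imp (fun e => ((conv _ _ _).2 e.symm).symm) (fun e => (conv _ _ _).2 e)
  · exact h2.imp (fun e => ((conv _ _ _).2 e.symm).symm) (fun e => (conv _ _ _).2 e)
  · exact h3.imp (fun e => ((conv _ _ _).2 e.symm).symm) (fun e => (conv _ _ _).2 e)
  · exact (conv _ _ _).2 h

theorem comb_inf_int {p q : ℕ} (hp : 2 ≤ p) (hq : 2 ≤ q) (hpq : p ≠ q) {a a' b b' : ℤ} (hb' : 0 < b')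
    (h1 : a = q * a' ∨ q * a = a') (h2 : b = q * b' ∨ q * b = b') (h3 : b' = p * a' ∨ p * b' = a')
    (h : b = p * a) : b' = p * a' :=
  (comb_zero_int hp hq hpq hb' h2 h1 (h3.symm.imp Eq.symm Eq.symm) h.symm).symm

end Add

end Fermat.Agent.S15.Outer.Disc
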