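import Fermat.Agent.S15.Red.Abs
import Fermat.Agent.S15.Outer.Disc.Comb

/-!
# S15 / OUTER / DISC : the abstract geometric part

Three function fields `F₀` ("level `p`"), `F₁` ("level `q`"), `F` ("level `p q`") over `K`, four maps
`α β : F₀ → F`, `lam mu : F₁ → F`, and the four functions `J₁ = α j = lam jq`, `J_q = β j = lam jq'`,
`J_p = α j' = mu jq`, `J_{pq} = β j' = mu jq'`.  If a place `w` of `F` restricts along `β` into the `A`-adic disc
around the cusp `0` (resp. `∞`), so it does along `α`.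
-/

set_option autoImplicit false
set_option linter.unusedSectionVars false

noncomputable section

namespace Fermat.Agent.S15.Outer.Disc

open AlgebraicCurve Fermat.Agent.Lib.RR Fermat.Agent.GAL.RED Fermat.Agent.S19 Fermat.Agent.S19.Weil
  Fermat.Agent.S37

variable {K : Type*} [Field K] [IsAlgClosed K] [CharZero K]

/-- the facts on the two cusps at a prime level `P`. -/
structure Lev {F : Type*} [Field F] [Algebra K F] (P : ℕ) (j j' : F) (oo zz : Place K F) : Prop where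
  ne : zz ≠ oo
  oo_j : oo.ord j = -1
  zz_j : zz.ord j = -(P : ℤ)
  oo_j' : oo.ord j' = -(P : ℤ)
  zz_j' : zz.ord j' = -1
  pole_j : ∀ Q : Place K F, Q.ord j < 0 → Q = oo ∨ Q = zz
  pole_j' : ∀ Q : Place K F, Q.ord j' < 0 → Q = oo ∨ Q = zz

/-- the dichotomy for the points with non integral `j` at a prime level `P`. -/
def DichEv {F : Type*} [Field F] [Algebra K F] [IsFF K F] (A : ValuationSubring K) (P : ℕ) (j j' : F) :
    Prop :=
  ∀ Q : Place K F, 0 ≤ Q.ord j → (1 < A.valuation (ev Q j) ∨ 1 < A.valuation (ev Q j')) →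
    1 < A.valuation (ev Q j) ∧ 1 < A.valuation (ev Q j') ∧
      (A.valuation (ev Q j') = A.valuation (ev Q j) ^ P ∨
        A.valuation (ev Q j') ^ P = A.valuation (ev Q j))

/-- the `A`-adic disc around the cusp `0`. -/
def ZAabs {F : Type*} [Field F] [Algebra K F] [IsFF K F] (A : ValuationSubring K) (P : ℕ) (j j' : F)
    (zz : Place K F) : Set (Place K F) :=
  {x | x = zz ∨ (0 ≤ x.ord j ∧ 1 < A.valuation (ev x j) ∧
    A.valuation (ev x j') ^ P = A.valuation (ev x j))}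

/-- the `A`-adic disc around the cusp `∞`. -/
def IAabs {F : Type*} [Field F] [Algebra K F] [IsFF K F] (A : ValuationSubring K) (P : ℕ) (j j' : F)
    (oo : Place K F) : Set (Place K F) :=
  {x | x = oo ∨ (0 ≤ x.ord j ∧ 1 < A.valuation (ev x j) ∧
    A.valuation (ev x j') = A.valuation (ev x j) ^ P)}

section One

variable {F₀ F : Type*} [Field F₀] [Algebra K F₀] [IsFF K F₀] [Field F] [Algebra K F] [IsFF K F]
  {P : ℕ} {j j' : F₀} {oo zz : Place K F₀}

theorem Lev.ord_dich (L : Lev P j j' oo zz) (Q : Place K F₀) (h : Q.ord j < 0 ∨ Q.ord j' < 0) :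
    (Q = oo ∧ Q.ord j = -1 ∧ Q.ord j' = -(P : ℤ)) ∨ (Q = zz ∧ Q.ord j = -(P : ℤ) ∧ Q.ord j' = -1) := by
  have h' : Q = oo ∨ Q = zz := h.elim (L.pole_j Q) (L.pole_j' Q)
  rcases h' with rfl | rfl
  · exact Or.inl ⟨rfl, L.oo_j, L.oo_j'⟩
  · exact Or.inr ⟨rfl, L.zz_j, L.zz_j'⟩

variable (φ : F₀ →ₐ[K] F) (hφ : φ.toRingHom.IsIntegral)

theorem ord_along_neg_iff (w : Place K F) (f : F₀) :
    w.ord (φ f) < 0 ↔ (w.restrictAlong φ hφ).ord f < 0 := by
  have he : (0 : ℤ) < (Place.ramificationIndexAlong φ w : ℤ) := by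
    exact_mod_cast Red.ev_restrictAlong_ram_pos φ hφ w
  rw [Place.ord_restrictAlong φ hφ]
  constructor
  · intro h
    by_contra hc
    exact absurd (mul_nonneg he.le (not_lt.1 hc)) (not_le.2 h)
  · intro h
    exact mul_neg_of_pos_of_neg he h

theorem ord_along_nonneg_iff (w : Place K F) (f : F₀) :
    0 ≤ w.ord (φ f) ↔ 0 ≤ (w.restrictAlong φ hφ).ord f := by
  rw [← not_lt, ← not_lt, ord_along_neg_iff φ hφ]

theorem Lev.ord_dich_along (hP : 0 < P) (L : Lev P j j' oo zz) (w : Place K F)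
    (h : w.ord (φ j) < 0 ∨ w.ord (φ j') < 0) :
    w.ord (φ j) < 0 ∧ w.ord (φ j') < 0 ∧
      ((w.restrictAlong φ hφ = oo ∧ - w.ord (φ j') = P * - w.ord (φ j)) ∨
        (w.restrictAlong φ hφ = zz ∧ P * - w.ord (φ j') = - w.ord (φ j))) := by
  have he : (0 : ℤ) < (Place.ramificationIndexAlong φ w : ℤ) := by
    exact_mod_cast Red.ev_restrictAlong_ram_pos φ hφ w
  have hP' : (0 : ℤ) < P := by exact_mod_cast hP
  have h' : (w.restrictAlong φ hφ).ord j < 0 ∨ (w.restrictAlong φ hφ).ord j' < 0 :=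
    h.imp (ord_along_neg_iff φ hφ w j).1 (ord_along_neg_iff φ hφ w j').1
  rw [Place.ord_restrictAlong φ hφ, Place.ord_restrictAlong φ hφ]
  rcases L.ord_dich _ h' with ⟨hQ, h1, h2⟩ | ⟨hQ, h1, h2⟩
  · rw [h1, h2]
    refine ⟨by nlinarith, by nlinarith, Or.inl ⟨hQ, by ring⟩⟩
  · rw [h1, h2]
    refine ⟨by nlinarith, by nlinarith, Or.inr ⟨hQ, by ring⟩⟩

include hφ in
theorem Lev.reg_along (hP : 0 < P) (L : Lev P j j' oo zz) (w : Place K F)
    (h : 0 ≤ w.ord (φ j) ∨ 0 ≤ w.ord (φ j')) : 0 ≤ w.ord (φ j) ∧ 0 ≤ w.ord (φ j') := by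
  by_contra hc
  have h' : w.ord (φ j) < 0 ∨ w.ord (φ j') < 0 := by
    by_contra hc'
    push Not at hc'
    exact hc hc'
  obtain ⟨h1, h2, -⟩ := L.ord_dich_along φ hφ hP w h'
  rcases h with h | h
  · exact absurd h (not_le.2 h1)
  · exact absurd h (not_le.2 h2)

include hφ in
theorem DichEv.along {A : ValuationSubring K} (D : DichEv A P j j') (w : Place K F)
    (hreg : 0 ≤ w.ord (φ j))
    (h : 1 < A.valuation (ev w (φ j)) ∨ 1 < A.valuation (ev w (φ j'))) :
    1 < A.valuation (ev w (φ j)) ∧ 1 < A.valuation (ev w (φ j')) ∧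
      (A.valuation (ev w (φ j')) = A.valuation (ev w (φ j)) ^ P ∨
        A.valuation (ev w (φ j')) ^ P = A.valuation (ev w (φ j))) := by
  rw [Red.ev_restrictAlong φ hφ, Red.ev_restrictAlong φ hφ] at h ⊢
  exact D _ ((ord_along_nonneg_iff φ hφ w j).1 hreg) h

end One

section Main

variable {F₀ F₁ F : Type*} [Field F₀] [Algebra K F₀] [IsFF K F₀] [Field F₁] [Algebra K F₁] [IsFF K F₁]
  [Field F] [Algebra K F] [IsFF K F]
  {p q : ℕ} {j j' : F₀} {oo zz : Place K F₀} {jq jq' : F₁} {ooq zzq : Place K F₁}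
  (α β : F₀ →ₐ[K] F) (lam mu : F₁ →ₐ[K] F)
  (hα : α.toRingHom.IsIntegral) (hβ : β.toRingHom.IsIntegral)
  (hlam : lam.toRingHom.IsIntegral) (hmu : mu.toRingHom.IsIntegral)

/-- the four identities. -/
structure Four (α β : F₀ →ₐ[K] F) (lam mu : F₁ →ₐ[K] F) (j j' : F₀) (jq jq' : F₁) : Prop where
  e1 : α j = lam jq
  e2 : β j = lam jq'
  e3 : α j' = mu jq
  e4 : β j' = mu jq'

variable {α β lam mu}

include hlam hmu in
/-- the three order dichotomies at a place where one of the four functions has a pole. -/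
theorem Four.ord_facts (E : Four α β lam mu j j' jq jq') (hp : 0 < p) (hq : 0 < q)
    (Lp : Lev p j j' oo zz) (Lq : Lev q jq jq' ooq zzq) (w : Place K F)
    (h : w.ord (β j) < 0) :
    0 < - w.ord (α j) ∧ 0 < - w.ord (α j') ∧
    (- w.ord (β j) = q * - w.ord (α j) ∨ q * - w.ord (β j) = - w.ord (α j)) ∧
    (- w.ord (β j') = q * - w.ord (α j') ∨ q * - w.ord (β j') = - w.ord (α j')) ∧
    ((w.restrictAlong α hα = oo ∧ - w.ord (α j') = p * - w.ord (α j)) ∨
      (w.restrictAlong α hα = zz ∧ p * - w.ord (α j') = - w.ord (α j))) := by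
  have h1 := Lq.ord_dich_along lam hlam hq w (Or.inr (E.e2 ▸ h))
  rw [← E.e1, ← E.e2] at h1
  have h3 := Lp.ord_dich_along α hα hp w (Or.inl h1.1)
  have h2 := Lq.ord_dich_along mu hmu hq w (Or.inl (E.e3 ▸ h3.2.1))
  rw [← E.e3, ← E.e4] at h2
  refine ⟨by have := h1.1; omega, by have := h3.2.1; omega, ?_, ?_, h3.2.2⟩
  · exact h1.2.2.imp (fun e => e.2) (fun e => e.2)
  · exact h2.2.2.imp (fun e => e.2) (fun e => e.2)

include hlam hmu in
theorem Four.cusp_zero (E : Four α β lam mu j j' jq jq') (hp : 2 ≤ p) (hq : 2 ≤ q) (hpq : p ≠ q)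
    (Lp : Lev p j j' oo zz) (Lq : Lev q jq jq' ooq zzq) (w : Place K F)
    (hw : w.restrictAlong β hβ = zz) : w.restrictAlong α hα = zz := by
  have hp0 : (0 : ℤ) < p := by exact_mod_cast (by omega : 0 < p)
  have hneg : w.ord (β j) < 0 := by
    rw [ord_along_neg_iff β hβ, hw, Lp.zz_j]
    omega
  have hrel : (p : ℤ) * - w.ord (β j') = - w.ord (β j) := by
    rw [Place.ord_restrictAlong β hβ, Place.ord_restrictAlong β hβ, hw, Lp.zz_j, Lp.zz_j']
    ring
  obtain ⟨ha', -, h1, h2, h3⟩ := E.ord_facts hα hlam hmu (by omega) (by omega) Lp Lq w hneg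
  have key := comb_zero_int hp hq hpq ha' h1 h2 (h3.imp (fun e => e.2) (fun e => e.2)) hrel
  rcases h3 with ⟨-, h3⟩ | ⟨h3, -⟩
  · exfalso
    rw [h3] at key
    have hp2 : (2 : ℤ) ≤ p := by exact_mod_cast hp
    have h5 : 2 * - w.ord (α j) ≤ p * - w.ord (α j) := mul_le_mul_of_nonneg_right hp2 ha'.le
    have h6 : 2 * (p * - w.ord (α j)) ≤ p * (p * - w.ord (α j)) :=
      mul_le_mul_of_nonneg_right hp2 (mul_pos hp0 ha').le
    linarith
  · exact h3

include hlam hmu in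
theorem Four.cusp_inf (E : Four α β lam mu j j' jq jq') (hp : 2 ≤ p) (hq : 2 ≤ q) (hpq : p ≠ q)
    (Lp : Lev p j j' oo zz) (Lq : Lev q jq jq' ooq zzq) (w : Place K F)
    (hw : w.restrictAlong β hβ = oo) : w.restrictAlong α hα = oo := by
  have hp0 : (0 : ℤ) < p := by exact_mod_cast (by omega : 0 < p)
  have hneg : w.ord (β j) < 0 := by
    rw [ord_along_neg_iff β hβ, hw, Lp.oo_j]
    omega
  have hrel : - w.ord (β j') = (p : ℤ) * - w.ord (β j) := by
    rw [Place.ord_restrictAlong β hβ, Place.ord_restrictAlong β hβ, hw, Lp.oo_j, Lp.oo_j']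
    ring
  obtain ⟨ha', hb', h1, h2, h3⟩ := E.ord_facts hα hlam hmu (by omega) (by omega) Lp Lq w hneg
  have key := comb_inf_int hp hq hpq hb' h1 h2 (h3.imp (fun e => e.2) (fun e => e.2)) hrel
  rcases h3 with ⟨h3, -⟩ | ⟨-, h3⟩
  · exact h3
  · exfalso
    rw [key] at h3
    have hp2 : (2 : ℤ) ≤ p := by exact_mod_cast hp
    have h5 : 2 * - w.ord (α j) ≤ p * - w.ord (α j) := mul_le_mul_of_nonneg_right hp2 ha'.le
    have h6 : 2 * (p * - w.ord (α j)) ≤ p * (p * - w.ord (α j)) :=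
      mul_le_mul_of_nonneg_right hp2 (mul_pos hp0 ha').le
    linarith

include hα hlam hmu in
/-- the facts at a place where the four functions are regular. -/
theorem Four.ev_facts (E : Four α β lam mu j j' jq jq') (hp : 0 < p) (hq : 0 < q)
    (Lp : Lev p j j' oo zz) (Lq : Lev q jq jq' ooq zzq) {A : ValuationSubring K}
    (Dp : DichEv A p j j') (Dq : DichEv A q jq jq') (w : Place K F)
    (h : 0 ≤ w.ord (β j)) (ha : 1 < A.valuation (ev w (β j))) (hb : 1 < A.valuation (ev w (β j'))) :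
    0 ≤ w.ord (α j) ∧ 1 < A.valuation (ev w (α j)) ∧ 1 < A.valuation (ev w (α j')) ∧
    (A.valuation (ev w (β j)) = A.valuation (ev w (α j)) ^ q ∨
      A.valuation (ev w (β j)) ^ q = A.valuation (ev w (α j))) ∧
    (A.valuation (ev w (β j')) = A.valuation (ev w (α j')) ^ q ∨
      A.valuation (ev w (β j')) ^ q = A.valuation (ev w (α j'))) ∧
    (A.valuation (ev w (α j')) = A.valuation (ev w (α j)) ^ p ∨
      A.valuation (ev w (α j')) ^ p = A.valuation (ev w (α j))) := by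
  have r1 := Lq.reg_along lam hlam hq w (Or.inr (E.e2 ▸ h))
  have r3 := Lp.reg_along α hα hp w (Or.inl (E.e1 ▸ r1.1))
  have h1 := Dq.along lam hlam w r1.1 (Or.inr (E.e2 ▸ ha))
  rw [← E.e1, ← E.e2] at h1
  have h2 := Dq.along mu hmu w (E.e3 ▸ r3.2) (Or.inr (E.e4 ▸ hb))
  rw [← E.e3, ← E.e4] at h2
  have h3 := Dp.along α hα w r3.1 (Or.inl h1.1)
  exact ⟨r3.1, h1.1, h2.1, h1.2.2, h2.2.2, h3.2.2⟩

include hlam hmu in
theorem Four.zero_pres (E : Four α β lam mu j j' jq jq') (hp : 2 ≤ p) (hq : 2 ≤ q) (hpq : p ≠ q)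
    (Lp : Lev p j j' oo zz) (Lq : Lev q jq jq' ooq zzq) {A : ValuationSubring K}
    (Dp : DichEv A p j j') (Dq : DichEv A q jq jq') (w : Place K F)
    (hw : w.restrictAlong β hβ ∈ ZAabs A p j j' zz) : w.restrictAlong α hα ∈ ZAabs A p j j' zz := by
  rcases hw with hw | ⟨h0, ha, hab⟩
  · exact Or.inl (E.cusp_zero hα hβ hlam hmu hp hq hpq Lp Lq w hw)
  · right
    rw [← Red.ev_restrictAlong β hβ] at ha
    rw [← Red.ev_restrictAlong β hβ, ← Red.ev_restrictAlong β hβ] at hab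
    rw [← ord_along_nonneg_iff β hβ] at h0
    have hb : 1 < A.valuation (ev w (β j')) := Comb_one_lt_of_pow (hab ▸ ha)
    obtain ⟨r, ha', -, h1, h2, h3⟩ :=
      E.ev_facts hα hlam hmu (by omega) (by omega) Lp Lq Dp Dq w h0 ha hb
    rw [← Red.ev_restrictAlong α hα, ← Red.ev_restrictAlong α hα, ← ord_along_nonneg_iff α hα]
    exact ⟨r, ha', comb_zero hp hq hpq ha' h1 h2 h3 hab⟩

include hlam hmu in
theorem Four.inf_pres (E : Four α β lam mu j j' jq jq') (hp : 2 ≤ p) (hq : 2 ≤ q) (hpq : p ≠ q)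
    (Lp : Lev p j j' oo zz) (Lq : Lev q jq jq' ooq zzq) {A : ValuationSubring K}
    (Dp : DichEv A p j j') (Dq : DichEv A q jq jq') (w : Place K F)
    (hw : w.restrictAlong β hβ ∈ IAabs A p j j' oo) : w.restrictAlong α hα ∈ IAabs A p j j' oo := by
  rcases hw with hw | ⟨h0, ha, hab⟩
  · exact Or.inl (E.cusp_inf hα hβ hlam hmu hp hq hpq Lp Lq w hw)
  · right
    rw [← Red.ev_restrictAlong β hβ] at ha
    rw [← Red.ev_restrictAlong β hβ, ← Red.ev_restrictAlong β hβ] at hab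
    rw [← ord_along_nonneg_iff β hβ] at h0
    have hb : 1 < A.valuation (ev w (β j')) := by
      rw [hab]
      exact one_lt_pow₀ ha (by omega)
    obtain ⟨r, ha', hb', h1, h2, h3⟩ :=
      E.ev_facts hα hlam hmu (by omega) (by omega) Lp Lq Dp Dq w h0 ha hb
    rw [← Red.ev_restrictAlong α hα, ← Red.ev_restrictAlong α hα, ← ord_along_nonneg_iff α hα]
    exact ⟨r, ha', comb_inf hp hq hpq hb' h1 h2 h3 hab⟩

end Main

section Supp

variable {F₀ F : Type*} [Field F₀] [Algebra K F₀] [IsFF K F₀] [Field F] [Algebra K F] [IsFF K F]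
  (α β : F₀ →ₐ[K] F) (hα : α.toRingHom.IsIntegral) (hβ : β.toRingHom.IsIntegral)

/-- the support of `α_* β^* (x)`. -/
theorem exists_of_mem_support (x y : Place K F₀)
    (hy : Divisor.pushforwardAlong α hα (Divisor.pullbackAlong β hβ (Finsupp.single x 1)) y ≠ 0) :
    ∃ w : Place K F, w.restrictAlong β hβ = x ∧ w.restrictAlong α hα = y := by
  classical
  rw [Divisor.pullbackAlong_single, map_sum, Finsupp.finsetSum_apply] at hy
  obtain ⟨w, hw, hne⟩ := Finset.exists_ne_zero_of_sum_ne_zero hy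
  refine ⟨w, Place.mem_fiberAlong.1 hw, ?_⟩
  rw [Divisor.pushforwardAlong_single, Finsupp.single_apply] at hne
  by_contra hc
  rw [if_neg hc] at hne
  exact hne rfl

end Supp

end Fermat.Agent.S15.Outer.Disc
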