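import Fermat.Agent.S15.Outer.Disc.Gen
import Fermat.Agent.S15.Outer.Dich

/-!
# S15 / OUTER / DISC : the point dichotomy `Dich A P` via block RED (`A = ⊤`, or `A` over a prime `ℓ ≠ P`)
-/

set_option autoImplicit false

noncomputable section

namespace Fermat.Agent.S15.Outer

open AlgebraicCurve ModularCurve Fermat.Agent.S24 Fermat.Agent.S37 Fermat.Agent.Lib.RR

theorem dich_top (P : ℕ) [NeZero P] : Dich ⊤ P := by
  intro x a b _ h
  rcases h with h | h
  · exact absurd (ValuationSubring.mem_top a) h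
  · exact absurd (ValuationSubring.mem_top b) h

theorem dich_of_liesOver {P : ℕ} [NeZero P] {ℓ : ℕ} {A : ValuationSubring Kbar} (hP : P.Prime)
    (hℓ : ℓ.Prime) (hℓP : ℓ ≠ P) (hA : A.LiesOverPrime ℓ) : Dich A P := by
  intro x a b hx h
  have ha : a ∉ A := by
    rcases h with h | h
    · exact h
    · rcases Dich.dich_swap hP hℓ hℓP hA hx h with h1 | h1
      · exact Dich.nearInf_not_mem_right hP.ne_zero h1
      · exact Dich.nearZero_not_mem_right h1
  rcases Dich.dich hP hℓ hℓP hA hx ha with h1 | h1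
  · exact ⟨ha, Dich.nearInf_not_mem_right hP.ne_zero h1, Or.inl h1.2⟩
  · exact ⟨ha, Dich.nearZero_not_mem_right h1, Or.inr h1.2⟩

end Fermat.Agent.S15.Outer
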