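import Fermat.Agent.S15.Outer.Model
import Fermat.Agent.S15.Outer.Disc.Abs
import Fermat.Agent.S15.Red.Conc
import Fermat.Agent.DR.Gal.Level

/-!
# S15 / OUTER / DISC : the generator `T_q` has a divisor level model

Parametric in the point dichotomy `Dich A P` at the two prime levels `P = p, q`.
-/

set_option autoImplicit false
set_option linter.unusedSectionVars false

noncomputable section

namespace Fermat.Agent.S15.Outer

open AlgebraicCurve ModularCurve Fermat.Agent.S24 Fermat.Agent.S37 Fermat.Agent.Lib.RR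
  Fermat.Agent.GAL Fermat.Agent.GAL.Hecke Fermat.Agent.GAL.RED Fermat.Agent.S19 Fermat.Agent.S19.Weil

/-- the dichotomy for the points of `X₀(P)` with a non integral coordinate. -/
def Dich (A : ValuationSubring Kbar) (P : ℕ) [NeZero P] : Prop :=
  ∀ (x : Place Kbar (FN P)) (a b : Kbar), IsPt P x a b → (a ∉ A ∨ b ∉ A) →
    a ∉ A ∧ b ∉ A ∧ (A.valuation b = A.valuation a ^ P ∨ A.valuation b ^ P = A.valuation a)

namespace Disc

theorem not_mem_iff (A : ValuationSubring Kbar) (a : Kbar) : a ∉ A ↔ 1 < A.valuation a := by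
  rw [← not_le, A.valuation_le_one_iff]

section Level

variable (P : ℕ) [NeZero P]

theorem lev (hP : P.Prime) : Lev P (jF P) (Red.jp P) (oo P) (zz P) := by
  have C := Red.cuspFacts P hP
  exact ⟨C.ne, C.oo_j, C.zz_j, C.oo_jp, C.zz_jp, C.pole_j, C.pole_jp⟩

variable {P}

theorem isPt_conv {x : Place Kbar (FN P)} {a b : Kbar} (h : IsPt P x a b) : S15.IsPt P x a b :=
  ⟨h.ha, h.hb⟩

theorem isPt_of_reg (hP : P.Prime) {x : Place Kbar (FN P)} (h : 0 ≤ x.ord (jF P)) :
    IsPt P x (ev x (jF P)) (ev x (Red.jp P)) := by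
  have L := lev P hP
  have hP0 : (0 : ℤ) < P := by exact_mod_cast hP.pos
  have h' : 0 ≤ x.ord (Red.jp P) := by
    by_contra hc
    rcases L.ord_dich x (Or.inr (not_le.1 hc)) with ⟨-, h1, -⟩ | ⟨-, h1, -⟩ <;> omega
  have key : ∀ f : FN P, (oo P).ord f < 0 → 0 ≤ x.ord f →
      0 < x.ord (f - algebraMap Kbar (FN P) (ev x f)) := by
    intro f hf hx
    rcases ord_sub_ev_pos x ((mem_iff_ord x f).2 (Or.inr hx)) with h1 | h1
    · exfalso
      rw [h1, S24.ord_algebraMap] at hf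
      exact lt_irrefl _ hf
    · exact h1
  exact ⟨key _ (by rw [L.oo_j]; omega) h, key _ (by rw [L.oo_j']; omega) h'⟩

theorem Dich.ev {A : ValuationSubring Kbar} (hP : P.Prime) (D : Dich A P) :
    DichEv A P (jF P) (Red.jp P) := by
  intro Q hreg h
  have h1 := D Q _ _ (isPt_of_reg hP hreg)
    (h.imp (not_mem_iff A _).2 (not_mem_iff A _).2)
  exact ⟨(not_mem_iff A _).1 h1.1, (not_mem_iff A _).1 h1.2.1, h1.2.2⟩

theorem mem_ZA_iff (hP : P.Prime) (A : ValuationSubring Kbar) (x : Place Kbar (FN P)) :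
    x ∈ ZA P A ↔ x ∈ ZAabs A P (jF P) (Red.jp P) (zz P) := by
  constructor
  · rintro (h | ⟨a, b, hpt, ha, hab⟩)
    · exact Or.inl h
    · obtain ⟨h1, rfl, rfl⟩ := Red.isPt_ev (isPt_conv hpt)
      exact Or.inr ⟨S24.ord_nonneg_of_mem x h1, (not_mem_iff A _).1 ha, hab⟩
  · rintro (h | ⟨h0, ha, hab⟩)
    · exact Or.inl h
    · exact Or.inr ⟨_, _, isPt_of_reg hP h0, (not_mem_iff A _).2 ha, hab⟩

theorem mem_IA_iff (hP : P.Prime) (A : ValuationSubring Kbar) (x : Place Kbar (FN P)) :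
    x ∈ IA P A ↔ x ∈ IAabs A P (jF P) (Red.jp P) (oo P) := by
  constructor
  · rintro (h | ⟨a, b, hpt, ha, hab⟩)
    · exact Or.inl h
    · obtain ⟨h1, rfl, rfl⟩ := Red.isPt_ev (isPt_conv hpt)
      exact Or.inr ⟨S24.ord_nonneg_of_mem x h1, (not_mem_iff A _).1 ha, hab⟩
  · rintro (h | ⟨h0, ha, hab⟩)
    · exact Or.inl h
    · exact Or.inr ⟨_, _, isPt_of_reg hP h0, (not_mem_iff A _).2 ha, hab⟩

end Level

section Two

variable (p q : ℕ) [NeZero p] [NeZero q]

/-- the inclusion `F(q) ⊆ F(p q)`. -/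
def lam : FN q →ₐ[Kbar] FN (p * q) := DR.Gal.lvl (Dvd.intro_left p rfl)

/-- `f(t) ↦ f(t^p)`, `F(q) → F(p q)`. -/
def mu : FN q →ₐ[Kbar] FN (p * q) :=
  (DR.Gal.lvl (dvd_of_eq (Nat.mul_comm q p))).comp (heckeBetaBar Kbar q p)

theorem coe_lam (x : FN q) : ((lam p q x : FN (p * q)) : LaurentSeries Kbar) = (x : LaurentSeries Kbar) :=
  DR.Gal.coe_lvl _ x

theorem coe_mu (x : FN q) :
    ((mu p q x : FN (p * q)) : LaurentSeries Kbar) = qExpand Kbar p (x : LaurentSeries Kbar) := by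
  unfold mu
  rw [AlgHom.comp_apply, DR.Gal.coe_lvl, coe_heckeBetaBar]

theorem integral_lam : (lam p q).toRingHom.IsIntegral := DR.Gal.integral_lvl _

theorem integral_mu : (mu p q).toRingHom.IsIntegral :=
  RingHom.IsIntegral.trans _ _ (integral_beta q p) (DR.Gal.integral_lvl _)

theorem qExpand_congr (f : LaurentSeries Kbar) (m n : ℕ) [NeZero m] [NeZero n] (h : m = n) :
    qExpand Kbar m f = qExpand Kbar n f := by
  subst h
  rfl

theorem four : Four (heckeAlphaBar Kbar p q) (heckeBetaBar Kbar p q) (lam p q) (mu p q)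
    (jF p) (Red.jp p) (jF q) (Red.jp q) where
  e1 := by
    apply Subtype.ext
    rw [coe_heckeAlphaBar, coe_lam]
    rfl
  e2 := by
    apply Subtype.ext
    rw [coe_heckeBetaBar, coe_lam, FNAdjoin.coe_jd']
    rfl
  e3 := by
    apply Subtype.ext
    rw [coe_heckeAlphaBar, coe_mu, FNAdjoin.coe_jd']
    rfl
  e4 := by
    apply Subtype.ext
    rw [coe_heckeBetaBar, coe_mu, FNAdjoin.coe_jd', FNAdjoin.coe_jd', qExpand_qExpand,
      qExpand_qExpand]
    exact qExpand_congr _ _ _ (Nat.mul_comm q p)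

variable {p q}

theorem pres_ZA (hp : p.Prime) (hq : q.Prime) (hpq : p ≠ q) {A : ValuationSubring Kbar}
    (Dp : Dich A p) (Dq : Dich A q) : Pres (ZA p A) (heckeDiv p q) := by
  refine Pres.of_single fun x hx y hy => ?_
  rw [Finset.mem_coe, Finsupp.mem_support_iff, heckeDiv_apply] at hy
  obtain ⟨w, rfl, rfl⟩ := exists_of_mem_support _ _ _ _ x y hy
  rw [mem_ZA_iff hp] at hx ⊢
  exact (four p q).zero_pres _ _ (integral_lam p q) (integral_mu p q) hp.two_le hq.two_le hpq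
    (lev p hp) (lev q hq) (Dich.ev hp Dp) (Dich.ev hq Dq) w hx

theorem pres_IA (hp : p.Prime) (hq : q.Prime) (hpq : p ≠ q) {A : ValuationSubring Kbar}
    (Dp : Dich A p) (Dq : Dich A q) : Pres (IA p A) (heckeDiv p q) := by
  refine Pres.of_single fun x hx y hy => ?_
  rw [Finset.mem_coe, Finsupp.mem_support_iff, heckeDiv_apply] at hy
  obtain ⟨w, rfl, rfl⟩ := exists_of_mem_support _ _ _ _ x y hy
  rw [mem_IA_iff hp] at hx ⊢
  exact (four p q).inf_pres _ _ (integral_lam p q) (integral_mu p q) hp.two_le hq.two_le hpq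
    (lev p hp) (lev q hq) (Dich.ev hp Dp) (Dich.ev hq Dq) w hx

variable (p q)

theorem degree_heckeDiv (D : Dv p) :
    Divisor.degree (heckeDiv p q D) = (finrankAlong Kbar (heckeBetaBar Kbar p q) : ℤ) * Divisor.degree D :=
  Divisor.degree_correspondence _ _ _ _ (fundamentalIdentityAlong _ _ (finiteAlong_beta p q)) D

end Two

end Disc

/-- **the generator**: `T_q` has the divisor level model `heckeDiv p q`. -/
theorem gen_model {p : ℕ} [NeZero p] (hp : p.Prime) (q : Nat.Primes) (hq : (q : ℕ) ≠ p)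
    (hD : ∀ A : ValuationSubring Kbar,
      Dich A p ∧ (haveI : NeZero (q : ℕ) := ⟨q.2.ne_zero⟩; Dich A (q : ℕ))) :
    haveI : NeZero (q : ℕ) := ⟨q.2.ne_zero⟩
    Model (heckeOperatorBar p q) (heckeDiv p q) (finrankAlong Kbar (heckeBetaBar Kbar p q) : ℤ) := by
  haveI : NeZero (q : ℕ) := ⟨q.2.ne_zero⟩
  exact
  { deg := Disc.degree_heckeDiv p q
    cls := fun D h h' => by
      rw [heckeOperatorBar_apply]
      exact heckeOperatorAlong_mk p q ⟨D, h⟩
    presZ := fun A => Disc.pres_ZA hp q.2 (Ne.symm hq) (hD A).1 (hD A).2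
    presI := fun A => Disc.pres_IA hp q.2 (Ne.symm hq) (hD A).1 (hD A).2 }

end Fermat.Agent.S15.Outer
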