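import Fermat.Agent.S15.Outer.Disc.DichRed
import Fermat.Agent.S15.Outer.GenRed

/-!
# S15 / OUTER / DISC : every `t ∈ TTS p S` has a divisor level model `ModelG (GS p S)`; no open leaf is used
(only `ModelG`, `GS`, `exists_modelG_of_gen` of `GenRed.lean`).
-/

set_option autoImplicit false

noncomputable section

namespace Fermat.Agent.S15.Outer

open AlgebraicCurve ModularCurve Fermat.Agent.S24 Fermat.Agent.S37 Fermat.Agent.Lib.RR

variable {p : ℕ} [NeZero p]

theorem dich_of_GS {P : ℕ} [NeZero P] (hP : P.Prime) {S : Finset ℕ} (hPS : P ∉ S)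
    {A : ValuationSubring Kbar} (hA : GS p S A) : Dich A P := by
  rcases hA with rfl | ⟨ℓ, hℓS, hℓ, -, hA⟩
  · exact dich_top P
  · exact dich_of_liesOver hP hℓ (fun h => hPS (h ▸ hℓS)) hA

theorem dich_of_GS_self (hp : p.Prime) {S : Finset ℕ} {A : ValuationSubring Kbar} (hA : GS p S A) :
    Dich A p := by
  rcases hA with rfl | ⟨ℓ, -, hℓ, hℓp, hA⟩
  · exact dich_top p
  · exact dich_of_liesOver hp hℓ hℓp hA

/-- **The generators.** -/
theorem modelG_hecke' (hp : p.Prime) (S : Finset ℕ) (q : Nat.Primes) (hq : (q : ℕ) ≠ p)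
    (hqS : (q : ℕ) ∉ S) :
    haveI : NeZero (q : ℕ) := ⟨q.2.ne_zero⟩
    ModelG (GS p S) (heckeOperatorBar p q) (heckeDiv p q) ((q : ℤ) + 1) := by
  have : NeZero (q : ℕ) := ⟨q.2.ne_zero⟩
  have hqp : ¬ (q : ℕ) ∣ p := fun h => hq ((Nat.prime_dvd_prime_iff_eq q.2 hp).1 h)
  refine ⟨degree_heckeDiv p q q.2 hqp, ?_, ?_, ?_⟩
  · intro D h h'
    exact heckeOperatorAlong_mk p q ⟨D, h⟩
  · intro A hA
    exact Disc.pres_ZA hp q.2 (Ne.symm hq) (dich_of_GS_self hp hA) (dich_of_GS q.2 hqS hA)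
  · intro A hA
    exact Disc.pres_IA hp q.2 (Ne.symm hq) (dich_of_GS_self hp hA) (dich_of_GS q.2 hqS hA)

/-- **Every `t ∈ TTS p S` has a divisor level model** preserving the `A`-adic discs for `A = ⊤` and for `A` over the
primes `≠ p` of `S`. -/
theorem exists_modelG' (hp : p.Prime) (S : Finset ℕ) (t : Module.End ℤ (JZero p))
    (ht : t ∈ TTS p S) : ∃ (T : Dv p →+ Dv p) (ε : ℤ), ModelG (GS p S) t T ε :=
  exists_modelG_of_gen S (fun q hq hqS => ⟨_, _, modelG_hecke' hp S q hq hqS⟩) t ht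

end Fermat.Agent.S15.Outer
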