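import Fermat.Agent.S15.Outer.Phi
import Fermat.Agent.S15.Outer.NP.Type
import Fermat.Agent.S15.Outer.Quad

/-!
# S15 / OUTER / DISC : the common part of DISC-Z and DISC-I

For a place `w` of `FN (p q)`:
* `gen_point` : if `(Jq, Jpq)(w) = (a, b)` with `a ∉ A` then `(J1, Jp)(w) = (a', b')` with `a' ∉ A`, of the same type;
* `gen_cusp`  : if `w` is a pole of `Jq` then it is a pole of `J1`, of the same type.
-/

set_option autoImplicit false
set_option linter.unusedSectionVars false

noncomputable section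

namespace Fermat.Agent.S15.Outer

open AlgebraicCurve ModularCurve Fermat.Agent.S24 Fermat.Agent.S37 Fermat.Agent.Lib.RR
  Fermat.Agent.S19.Weil

section abs

variable {K F : Type*} [Field K] [Field F] [Algebra K F] [Lib.RR.IsFF K F] [IsAlgClosed K]

/-- regularity propagates along a modular relation. -/
theorem ModRel.mem_place {e : ℕ} {X Y : F} (h : ModRel e X Y) (P : Place K F)
    (hX : X ∈ P.toValuationSubring) : Y ∈ P.toValuationSubring := by
  rw [← ValuationSubring.valuation_le_one_iff] at hX ⊢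
  exact h.val_le_one _ hX

/-- the values at a place satisfy the modular relation. -/
theorem ModRel.ev {e : ℕ} {X Y : F} (h : ModRel e X Y) (P : Place K F)
    (hX : X ∈ P.toValuationSubring) (hY : Y ∈ P.toValuationSubring) :
    ModRel e (ev P X) (ev P Y) := by
  have h1 : ModRel e (⟨X, hX⟩ : P.toValuationSubring) ⟨Y, hY⟩ :=
    ModRel.of_map P.toValuationSubring.subtype Subtype.val_injective h
  have h2 := h1.map (resK P)
  have e1 : Fermat.Agent.S19.Weil.ev P X = resK P ⟨X, hX⟩ := GAL.RED.GRed.of_mem _ _ hX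
  have e2 : Fermat.Agent.S19.Weil.ev P Y = resK P ⟨Y, hY⟩ := GAL.RED.GRed.of_mem _ _ hY
  rw [e1, e2]
  exact h2

theorem mem_place_of_ord_sub_pos (P : Place K F) {f : F} {a : K}
    (h : 0 < P.ord (f - algebraMap K F a)) : f ∈ P.toValuationSubring := by
  have h1 : f - algebraMap K F a ∈ P.toValuationSubring := (mem_iff_ord P _).2 (Or.inr h.le)
  have h2 := add_mem h1 (Ev_algebraMap_mem P a)
  rwa [sub_add_cancel] at h2

theorem ev_eq_of_ord_sub_pos (P : Place K F) {f : F} {a : K}
    (h : 0 < P.ord (f - algebraMap K F a)) : Fermat.Agent.S19.Weil.ev P f = a :=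
  (ev_eq_iff P (mem_place_of_ord_sub_pos P h) a).2 (Or.inr h)

end abs

variable {p : ℕ} [NeZero p]

theorem jd_ne_algebraMap (N d : ℕ) [NeZero d] (hd : d ∣ N) (c : Kbar) :
    FNAdjoin.jd N d hd ≠ algebraMap Kbar (FN N) c := by
  intro h
  have h1 := congrArg (fun f : FN N => (f : LaurentSeries Kbar).coeff ((d : ℤ) * (-1))) h
  rw [FNAdjoin.coe_jd', qExpand_coeff_mul, Red.Conc_coeff_jK, DR.Conc.coe_algebraMap_FN,
    HahnSeries.C_apply, HahnSeries.coeff_single_of_ne] at h1
  · exact one_ne_zero h1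
  · have : (d : ℤ) ≠ 0 := by exact_mod_cast NeZero.ne d
    simpa using this

theorem J1_ne_algebraMap (q : ℕ) [NeZero q] (c : Kbar) :
    J1 p q ≠ algebraMap Kbar (FN (p * q)) c := by
  rw [J1, ← FNAdjoin.jd_one]
  exact jd_ne_algebraMap _ _ _ c

/-- **the point case.** -/
theorem gen_point (hp : p.Prime) (q : ℕ) [NeZero q] (hq : q.Prime) (hqp : q ≠ p)
    (A : ValuationSubring Kbar) (w : Place Kbar (FN (p * q))) {a b : Kbar}
    (h1 : 0 < w.ord (Jq p q - algebraMap Kbar _ a)) (h2 : 0 < w.ord (Jpq p q - algebraMap Kbar _ b))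
    (ha : a ∉ A) :
    ∃ a' b' : Kbar, 0 < w.ord (J1 p q - algebraMap Kbar _ a') ∧
      0 < w.ord (Jp p q - algebraMap Kbar _ b') ∧ a' ∉ A ∧
      (A.valuation b = A.valuation a ^ p → A.valuation b' = A.valuation a' ^ p) ∧
      (A.valuation b ^ p = A.valuation a → A.valuation b' ^ p = A.valuation a') := by
  have mq := mem_place_of_ord_sub_pos w h1
  have mpq := mem_place_of_ord_sub_pos w h2
  have m1 : J1 p q ∈ w.toValuationSubring := (modRel_J1_Jq p q hq).symm.mem_place w mq
  have mp : Jp p q ∈ w.toValuationSubring := (modRel_Jp_Jpq p q hq).symm.mem_place w mpq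
  have r1 := (modRel_J1_Jq p q hq).ev w m1 mq
  have r2 := (modRel_Jp_Jpq p q hq).ev w mp mpq
  have r3 := (modRel_J1_Jp p q hp).ev w m1 mp
  have r4 := (modRel_Jq_Jpq p q hp).ev w mq mpq
  rw [ev_eq_of_ord_sub_pos w h1] at r1 r4
  rw [ev_eq_of_ord_sub_pos w h2] at r2 r4
  have ha' : 1 < A.valuation a := by
    rw [← not_le, ValuationSubring.valuation_le_one_iff]
    exact ha
  obtain ⟨t1, t2, t3⟩ := type_transfer A.valuation hp hq hqp.symm r1 r2 r3 r4 ha'
  refine ⟨Fermat.Agent.S19.Weil.ev w (J1 p q), Fermat.Agent.S19.Weil.ev w (Jp p q),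
    (ord_sub_ev_pos w m1).resolve_left (J1_ne_algebraMap q _),
    (ord_sub_ev_pos w mp).resolve_left (jd_ne_algebraMap _ _ _ _), ?_, t2, t3⟩
  rw [← ValuationSubring.valuation_le_one_iff, not_le]
  exact t1

end Fermat.Agent.S15.Outer
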